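import Fermat.Agent.RIN.H6100.Rho

/-!
# RIN: the abstract Deuring theorem (parts (f), (g) and the final statement)

A constant reduction `(O, red)` of a function field `F/K` onto `Fb/k` for which Riemann's theorem
holds on both sides with the same constant `γ` (and the lattice property `hlat`) induces a map
`r` on places which preserves degrees and satisfies `r_* div(y) = div(red y)` for every `y ∈ O`
with nonzero reduction.

Statement = skeleton `exists_placeReduction_skel` of helper1601 (`Fermat/Agent/RIN/Skel.lean`)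
plus the hypothesis `[Nonempty (Place k Fb)]`, without which the hypotheses are vacuous on `Fb`.
-/

set_option autoImplicit false
set_option linter.unusedSectionVars false

namespace Fermat.Agent.RIN.H6100

open AlgebraicCurve

variable {K F k Fb : Type*} [Field K] [Field F] [Algebra K F] [Field k] [Field Fb] [Algebra k Fb]
variable {O : ValuationSubring F} {red : O →+* Fb} {γ : ℤ}
variable [HasPrincipalDivisors K F] [HasPrincipalDivisors k Fb]
variable [Nonempty (Place K F)] [Nonempty (Place k Fb)] [Infinite k]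

namespace Setup

variable (h : Setup K k O red γ)

/-- (f) A lower bound for the divisor of `red x`, `x ∈ L(D₁ - D₂) ∩ O`. -/
theorem ord_red_ge {D₁ D₂ : Divisor K F} (h₁ : h.Large D₁) (h₂ : h.Large D₂) (x : O)
    (hx : (x : F) ∈ riemannRochSpace (D₁ - D₂)) (hx0 : red x ≠ 0) (Q : Place k Fb) :
    -(Finsupp.mapDomain h.rmap D₁ Q) + Finsupp.mapDomain h.rmap D₂ Q ≤ Q.ord (red x) := by
  obtain ⟨g, hg, hg0, hgQ⟩ := h.exists_neg_ord_eq_rho h₂.1 Q
  obtain ⟨y, hy, rfl⟩ := hg
  have hxy : ((x * y : O) : F) ∈ riemannRochSpace D₁ := by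
    have := mul_mem_L hx hy
    rw [sub_add_cancel] at this
    exact this
  have h3 := h.neg_ord_le_rho ⟨x * y, hxy, rfl⟩
    (by rw [map_mul]; exact mul_ne_zero hx0 hg0) Q
  rw [map_mul, Q.ord_mul hx0 hg0, h.rho_eq_mapDomain h₁] at h3
  rw [h.rho_eq_mapDomain h₂] at hgQ
  omega

/-- (g) Conservation: `r_* div(y) = div(red y)`. -/
theorem conservation (y : O) (hy0 : red y ≠ 0) (D : Divisor K F)
    (hD : ∀ P, D P = P.ord (y : F)) (Q : Place k Fb) :
    Finsupp.mapDomain h.rmap D Q = Q.ord (red y) := by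
  have hyF : (y : F) ≠ 0 := by
    intro h0
    apply hy0
    rw [show y = 0 from Subtype.ext h0, map_zero]
  have hDdv : D = dv (K := K) (y : F) := by
    ext P
    rw [hD, dv_apply]
  have hdecomp : D = zeroDiv (K := K) (y : F) - poleDiv (K := K) (y : F) := by
    rw [hDdv]
    exact dv_eq_zeroDiv_sub_poleDiv _
  have hL₁ : h.Large (h.E0 + poleDiv (K := K) (y : F)) := h.large_add h.large_E0 (poleDiv_nonneg _)
  have hL₂ : h.Large (h.E0 + zeroDiv (K := K) (y : F)) := h.large_add h.large_E0 (zeroDiv_nonneg _)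
  have hdiff : (h.E0 + zeroDiv (K := K) (y : F)) - (h.E0 + poleDiv (K := K) (y : F)) = D := by
    rw [hdecomp]
    abel
  have hdiff' : (h.E0 + poleDiv (K := K) (y : F)) - (h.E0 + zeroDiv (K := K) (y : F)) = -D := by
    rw [← hdiff]
    abel
  have hmem : (y : F) ∈
      riemannRochSpace ((h.E0 + poleDiv (K := K) (y : F)) - (h.E0 + zeroDiv (K := K) (y : F))) := by
    rw [hdiff', mem_L hyF]
    intro P
    rw [Finsupp.neg_apply, hD]
    omega
  have hge : Finsupp.mapDomain h.rmap D ≤ dv (K := k) (red y) := by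
    rw [Finsupp.le_def]
    intro Q'
    have := h.ord_red_ge hL₁ hL₂ y hmem hy0 Q'
    rw [← hdiff, Finsupp.mapDomain_sub, Finsupp.sub_apply, dv_apply]
    omega
  have hdeg : Divisor.degree (Finsupp.mapDomain h.rmap D) = Divisor.degree (dv (K := k) (red y)) := by
    rw [degree_mapDomain h.hdegF h.hdegFb, degree_dv, hDdv, degree_dv]
  have := eq_of_le_of_degree_eq h.hdegFb hge hdeg
  rw [this, dv_apply]

end Setup

/-- **Abstract Deuring theorem** (good reduction of divisors).  -/
theorem exists_placeReduction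
    (O : ValuationSubring F) (red : O →+* Fb) (hO : IsConstRed K k O red)
    (hdegF : ∀ P : Place K F, P.deg = 1) (hdegFb : ∀ Q : Place k Fb, Q.deg = 1)
    (γ : ℤ)
    (hRF : ∀ D : Divisor K F,
      Divisor.degree D + 1 - γ ≤ (Module.finrank K (riemannRochSpace D) : ℤ))
    (hRFb : ∀ E : Divisor k Fb,
      Divisor.degree E + 1 - γ ≤ (Module.finrank k (riemannRochSpace E) : ℤ))
    (hRFb' : ∃ c : ℤ, ∀ E : Divisor k Fb, c ≤ Divisor.degree E →
      (Module.finrank k (riemannRochSpace E) : ℤ) ≤ Divisor.degree E + 1 - γ)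
    (hlat : ∀ M : Submodule K F, FiniteDimensional K M →
      ∃ b : Fin (Module.finrank K M) → F, ∃ hb : ∀ i, b i ∈ O, (∀ i, b i ∈ M) ∧
        LinearIndependent k (fun i => red ⟨b i, hb i⟩)) :
    ∃ r : Place K F → Place k Fb, (∀ P, (r P).deg = P.deg) ∧
      ∀ (y : F) (hy : y ∈ O), red ⟨y, hy⟩ ≠ 0 → ∀ D : Divisor K F, (∀ P, D P = P.ord y) →
        ∀ Q, Finsupp.mapDomain r D Q = Q.ord (red ⟨y, hy⟩) := by
  have h : Setup K k O red γ := ⟨hO, hlat, hdegF, hdegFb, hRF, hRFb, hRFb'⟩
  exact ⟨h.rmap, fun P => by rw [hdegFb, hdegF],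
    fun y hy hy0 D hD Q => h.conservation ⟨y, hy⟩ hy0 D hD Q⟩

end Fermat.Agent.RIN.H6100
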