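import Mathlib
import Fermat.Prelude.Def_AlgebraicCurve_Repartitions
import Fermat.Agent.S24.A564.PlaceBasic

/-!
# RIN (abstract Deuring theorem), part (a): basics on Riemann–Roch spaces

Generic facts for a field `F/K` all of whose places have degree one and whose nonzero functions
have divisors of degree zero (`HasPrincipalDivisors`).
-/

set_option autoImplicit false

namespace Fermat.Agent.RIN.H6100

open AlgebraicCurve
open Fermat.Agent.S24.A564.SO

variable {K F : Type*} [Field K] [Field F] [Algebra K F]

/-! ### Degrees of divisors -/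

theorem degree_eq_sum (D : Divisor K F) :
    Divisor.degree D = ∑ v ∈ D.support, D v * (v.deg : ℤ) := by
  unfold Divisor.degree
  rw [Finsupp.liftAddHom_apply]
  rfl

theorem degree_nonneg {D : Divisor K F} (hD : 0 ≤ D) : 0 ≤ Divisor.degree D := by
  rw [degree_eq_sum]
  refine Finset.sum_nonneg fun v _ => ?_
  have := Finsupp.le_def.mp hD v
  simp only [Finsupp.coe_zero, Pi.zero_apply] at this
  positivity

theorem degree_mono {D D' : Divisor K F} (h : D ≤ D') :
    Divisor.degree D ≤ Divisor.degree D' := by
  have h0 : 0 ≤ D' - D := sub_nonneg.mpr h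
  have := degree_nonneg h0
  rw [map_sub] at this
  linarith

theorem eq_zero_of_nonneg_of_degree_eq_zero (hdeg : ∀ P : Place K F, P.deg = 1)
    {D : Divisor K F} (hD : 0 ≤ D) (h0 : Divisor.degree D = 0) : D = 0 := by
  rw [degree_eq_sum] at h0
  have hnn : ∀ v ∈ D.support, 0 ≤ D v * (v.deg : ℤ) := by
    intro v _
    have := Finsupp.le_def.mp hD v
    simp only [Finsupp.coe_zero, Pi.zero_apply] at this
    positivity
  have := (Finset.sum_eq_zero_iff_of_nonneg hnn).mp h0
  ext v
  by_cases hv : v ∈ D.support
  · have h1 := this v hv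
    rw [hdeg v] at h1
    simpa using h1
  · simpa using hv

theorem eq_of_le_of_degree_eq (hdeg : ∀ P : Place K F, P.deg = 1)
    {D D' : Divisor K F} (h : D ≤ D') (hd : Divisor.degree D = Divisor.degree D') : D = D' := by
  have h0 : 0 ≤ D' - D := sub_nonneg.mpr h
  have h1 : Divisor.degree (D' - D) = 0 := by rw [map_sub, hd, sub_self]
  have := eq_zero_of_nonneg_of_degree_eq_zero hdeg h0 h1
  exact (sub_eq_zero.mp this).symm

theorem degree_single_one (hdeg : ∀ P : Place K F, P.deg = 1) (P : Place K F) :
    Divisor.degree (Finsupp.single P (1 : ℤ)) = 1 := by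
  rw [Divisor.degree_single, hdeg P]
  simp

theorem exists_pos_of_degree_pos {D : Divisor K F} (h : 0 < Divisor.degree D) :
    ∃ P : Place K F, 0 < D P := by
  by_contra hne
  push Not at hne
  rw [degree_eq_sum] at h
  have : ∑ v ∈ D.support, D v * (v.deg : ℤ) ≤ 0 :=
    Finset.sum_nonpos fun v _ => mul_nonpos_of_nonpos_of_nonneg (hne v) (by positivity)
  linarith

/-- An effective divisor of degree one is a single place. -/
theorem exists_eq_single_of_degree_eq_one (hdeg : ∀ P : Place K F, P.deg = 1)
    {D : Divisor K F} (hD : 0 ≤ D) (h1 : Divisor.degree D = 1) :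
    ∃ P : Place K F, D = Finsupp.single P 1 := by
  obtain ⟨P, hP⟩ := exists_pos_of_degree_pos (D := D) (by rw [h1]; exact one_pos)
  refine ⟨P, (eq_of_le_of_degree_eq hdeg ?_ ?_).symm⟩
  · rw [Finsupp.le_def]
    intro v
    by_cases hv : v = P
    · subst hv
      rw [Finsupp.single_eq_same]
      omega
    · rw [Finsupp.single_eq_of_ne' (Ne.symm hv)]
      have := Finsupp.le_def.mp hD v
      simpa using this
  · rw [degree_single_one hdeg, h1]

/-! ### Divisors of functions -/

section Div

variable [HasPrincipalDivisors K F]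

open Classical in
/-- The divisor of a function (zero for the zero function). -/
noncomputable def dv (f : F) : Divisor K F :=
  if hf : f ≠ 0 then (HasPrincipalDivisors.exists_divisor (K := K) f hf).choose else 0

theorem dv_apply (f : F) (v : Place K F) : dv (K := K) f v = v.ord f := by
  unfold dv
  split_ifs with hf
  · exact (HasPrincipalDivisors.exists_divisor (K := K) f hf).choose_spec.1 v
  · push Not at hf
    simp [hf]

theorem degree_dv (f : F) : Divisor.degree (dv (K := K) f) = 0 := by
  unfold dv
  split_ifs with hf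
  · exact (HasPrincipalDivisors.exists_divisor (K := K) f hf).choose_spec.2
  · simp

/-- The pole divisor of a function. -/
noncomputable def poleDiv (f : F) : Divisor K F :=
  (dv (K := K) f).mapRange (fun n => max (-n) 0) (by simp)

theorem poleDiv_apply (f : F) (v : Place K F) : poleDiv (K := K) f v = max (-(v.ord f)) 0 := by
  unfold poleDiv
  rw [Finsupp.mapRange_apply, dv_apply]

theorem poleDiv_nonneg (f : F) : 0 ≤ poleDiv (K := K) f := by
  rw [Finsupp.le_def]
  intro v
  rw [poleDiv_apply]
  simp

/-- The zero divisor of a function. -/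
noncomputable def zeroDiv (f : F) : Divisor K F :=
  (dv (K := K) f).mapRange (fun n => max n 0) (by simp)

theorem zeroDiv_apply (f : F) (v : Place K F) : zeroDiv (K := K) f v = max (v.ord f) 0 := by
  unfold zeroDiv
  rw [Finsupp.mapRange_apply, dv_apply]

theorem zeroDiv_nonneg (f : F) : 0 ≤ zeroDiv (K := K) f := by
  rw [Finsupp.le_def]
  intro v
  rw [zeroDiv_apply]
  simp

theorem dv_eq_zeroDiv_sub_poleDiv (f : F) :
    dv (K := K) f = zeroDiv (K := K) f - poleDiv (K := K) f := by
  ext v
  rw [Finsupp.sub_apply, zeroDiv_apply, poleDiv_apply, dv_apply]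
  rcases le_total (v.ord f) 0 with h | h
  · rw [max_eq_right h, max_eq_left (by omega)]; omega
  · rw [max_eq_left h, max_eq_right (by omega)]; omega

theorem degree_zeroDiv (f : F) :
    Divisor.degree (zeroDiv (K := K) f) = Divisor.degree (poleDiv (K := K) f) := by
  have := congrArg Divisor.degree (dv_eq_zeroDiv_sub_poleDiv (K := K) f)
  rw [degree_dv, map_sub] at this
  linarith

end Div

/-! ### Riemann–Roch spaces -/

theorem mem_L {D : Divisor K F} {f : F} (hf : f ≠ 0) :
    f ∈ riemannRochSpace D ↔ ∀ v : Place K F, -D v ≤ v.ord f := by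
  rw [mem_riemannRochSpace_iff]
  exact forall_congr' fun v => by simp [hf]

theorem L_mono {D D' : Divisor K F} (h : D ≤ D') :
    riemannRochSpace D ≤ riemannRochSpace D' := by
  intro f hf
  rw [mem_riemannRochSpace_iff] at hf ⊢
  intro v
  rcases hf v with h0 | h1
  · exact Or.inl h0
  · exact Or.inr (by have := Finsupp.le_def.mp h v; omega)

theorem one_mem_L {D : Divisor K F} (hD : 0 ≤ D) : (1 : F) ∈ riemannRochSpace D := by
  rw [mem_L one_ne_zero]
  intro v
  have := Finsupp.le_def.mp hD v
  simp only [Finsupp.coe_zero, Pi.zero_apply] at this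
  rw [Place.ord_one]
  omega

theorem mul_mem_L {D D' : Divisor K F} {f g : F} (hf : f ∈ riemannRochSpace D)
    (hg : g ∈ riemannRochSpace D') : f * g ∈ riemannRochSpace (D + D') := by
  rcases eq_or_ne f 0 with rfl | hf0
  · rw [zero_mul]; exact zero_mem _
  rcases eq_or_ne g 0 with rfl | hg0
  · rw [mul_zero]; exact zero_mem _
  rw [mem_L hf0] at hf
  rw [mem_L hg0] at hg
  rw [mem_L (mul_ne_zero hf0 hg0)]
  intro v
  rw [v.ord_mul hf0 hg0, Finsupp.add_apply]
  have := hf v
  have := hg v
  omega

theorem mem_L_poleDiv [HasPrincipalDivisors K F] (f : F) :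
    f ∈ riemannRochSpace (poleDiv (K := K) f) := by
  rcases eq_or_ne f 0 with rfl | hf
  · exact zero_mem _
  rw [mem_L hf]
  intro v
  rw [poleDiv_apply]
  have := le_max_left (-(v.ord f)) 0
  omega

theorem L_eq_bot_of_degree_neg [HasPrincipalDivisors K F] {D : Divisor K F}
    (hD : Divisor.degree D < 0) : riemannRochSpace D = ⊥ := by
  rw [eq_bot_iff]
  intro f hf
  rw [Submodule.mem_bot]
  by_contra hf0
  rw [mem_L hf0] at hf
  have hle : -D ≤ dv (K := K) f := by
    rw [Finsupp.le_def]
    intro v
    rw [Finsupp.neg_apply, dv_apply]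
    exact hf v
  have := degree_mono hle
  rw [degree_dv, map_neg] at this
  linarith

/-! ### Degree-one places: the residue field is the constant field -/

theorem mem_maximalIdeal_iff (P : Place K F) (a : P.toValuationSubring) (ha : a ≠ 0) :
    a ∈ IsLocalRing.maximalIdeal P.toValuationSubring ↔ 1 ≤ P.ord (a : F) := by
  have haF : (a : F) ≠ 0 := fun h => ha (Subtype.ext h)
  have h0 : 0 ≤ P.ord (a : F) := Place_ord_nonneg_of_mem P a.2
  rw [IsLocalRing.mem_maximalIdeal, mem_nonunits_iff]
  constructor
  · intro hu
    by_contra hlt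
    have h00 : P.ord (a : F) = 0 := by omega
    apply hu
    have hinv : (a : F)⁻¹ ∈ P.toValuationSubring :=
      Place_mem_of_ord_nonneg P (by rw [P.ord_inv, h00]; simp)
    exact IsUnit.of_mul_eq_one ⟨(a : F)⁻¹, hinv⟩ (Subtype.ext (by simp [haF]))
  · intro h1 hu
    have := P.ord_coe_unit hu.unit
    rw [IsUnit.unit_spec] at this
    omega

theorem exists_const_sub (P : Place K F) (hP : P.deg = 1) (a : P.toValuationSubring) :
    ∃ c : K, a - algebraMap K P.toValuationSubring c ∈
      IsLocalRing.maximalIdeal P.toValuationSubring := by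
  have h1 : Module.finrank K P.ResidueField = 1 := hP
  obtain ⟨c, hc⟩ := (finrank_eq_one_iff_of_nonzero' (1 : P.ResidueField) one_ne_zero).mp h1
    (IsLocalRing.residue P.toValuationSubring a)
  refine ⟨c, ?_⟩
  rw [← IsLocalRing.residue_eq_zero_iff, map_sub, ← hc, Algebra.smul_def, mul_one,
    IsScalarTower.algebraMap_apply K P.toValuationSubring P.ResidueField]
  exact sub_self _

/-- For a function `h` with `ord_P h = 0` at a degree-one place there is a constant `c` with
`h = c` or `ord_P (h - c) ≥ 1`. -/
theorem exists_const_ord_sub (P : Place K F) (hP : P.deg = 1) {h : F} (h0 : P.ord h = 0) :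
    ∃ c : K, h - algebraMap K F c = 0 ∨ 1 ≤ P.ord (h - algebraMap K F c) := by
  have hmem : h ∈ P.toValuationSubring := Place_mem_of_ord_nonneg P (by omega)
  obtain ⟨c, hc⟩ := exists_const_sub P hP ⟨h, hmem⟩
  refine ⟨c, ?_⟩
  by_cases hz : h - algebraMap K F c = 0
  · exact Or.inl hz
  · right
    have hne : (⟨h, hmem⟩ - algebraMap K P.toValuationSubring c : P.toValuationSubring) ≠ 0 := by
      intro h'
      apply hz
      have := congrArg (Subtype.val) h'
      simpa using this
    have := (mem_maximalIdeal_iff P _ hne).mp hc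
    simpa using this

/-- Adding a degree-one place to a divisor enlarges `L` by at most one dimension. -/
theorem L_add_single_le (P : Place K F) (hP : P.deg = 1) (D : Divisor K F) :
    ∃ g : F, riemannRochSpace (D + Finsupp.single P 1) ≤
      riemannRochSpace D ⊔ Submodule.span K {g} := by
  by_cases hex : ∃ g : F, g ∈ riemannRochSpace (D + Finsupp.single P 1) ∧ g ∉ riemannRochSpace D
  swap
  · push Not at hex
    exact ⟨0, fun f hf => Submodule.mem_sup_left (hex f hf)⟩
  obtain ⟨g, hg, hgD⟩ := hex
  have hg0 : g ≠ 0 := fun h => hgD (h ▸ zero_mem _)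
  -- the order at `P` of an element of `L(D+P) \ L(D)`
  have key : ∀ f : F, f ∈ riemannRochSpace (D + Finsupp.single P 1) → f ∉ riemannRochSpace D →
      P.ord f = -D P - 1 := by
    intro f hf hfD
    have hf0 : f ≠ 0 := fun h => hfD (h ▸ zero_mem _)
    rw [mem_L hf0] at hf hfD
    push Not at hfD
    obtain ⟨v, hv⟩ := hfD
    have hvP : v = P := by
      by_contra hne
      have := hf v
      rw [Finsupp.add_apply, Finsupp.single_eq_of_ne' (Ne.symm hne)] at this
      omega
    subst hvP
    have := hf v
    rw [Finsupp.add_apply, Finsupp.single_eq_same] at this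
    omega
  refine ⟨g, fun f hf => ?_⟩
  by_cases hfD : f ∈ riemannRochSpace D
  · exact Submodule.mem_sup_left hfD
  have hf0 : f ≠ 0 := fun h => hfD (h ▸ zero_mem _)
  have hordf := key f hf hfD
  have hordg := key g hg hgD
  have hq : P.ord (f / g) = 0 := by
    rw [div_eq_mul_inv, P.ord_mul hf0 (inv_ne_zero hg0), P.ord_inv, hordf, hordg]
    ring
  obtain ⟨c, hc⟩ := exists_const_ord_sub P hP hq
  have hdecomp : f = (f - c • g) + c • g := by ring
  rw [hdecomp]
  refine Submodule.add_mem _ (Submodule.mem_sup_left ?_)
    (Submodule.mem_sup_right (Submodule.smul_mem _ _ (Submodule.mem_span_singleton_self g)))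
  have hfc : f - c • g = g * (f / g - algebraMap K F c) := by
    rw [Algebra.smul_def]
    field_simp
  by_cases hz : f - c • g = 0
  · rw [hz]; exact zero_mem _
  have hmem : f - c • g ∈ riemannRochSpace (D + Finsupp.single P 1) :=
    Submodule.sub_mem _ hf (Submodule.smul_mem _ _ hg)
  rw [mem_L hz] at hmem ⊢
  intro v
  by_cases hvP : v = P
  · subst hvP
    have hne : f / g - algebraMap K F c ≠ 0 := by
      intro h'
      apply hz
      rw [hfc, h', mul_zero]
    rcases hc with hc | hc
    · exact absurd hc hne
    · rw [hfc, v.ord_mul hg0 hne, hordg]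
      omega
  · have := hmem v
    rw [Finsupp.add_apply, Finsupp.single_eq_of_ne' (Ne.symm hvP)] at this
    omega

/-- The positive part of a divisor. -/
noncomputable def posPart (D : Divisor K F) : Divisor K F :=
  D.mapRange (fun n => max n 0) (by simp)

theorem posPart_apply (D : Divisor K F) (v : Place K F) : posPart D v = max (D v) 0 := by
  unfold posPart
  rw [Finsupp.mapRange_apply]

theorem posPart_nonneg (D : Divisor K F) : 0 ≤ posPart D := by
  rw [Finsupp.le_def]
  intro v
  rw [posPart_apply]
  simp

theorem le_posPart (D : Divisor K F) : D ≤ posPart D := by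
  rw [Finsupp.le_def]
  intro v
  rw [posPart_apply]
  exact le_max_left _ _

/-! ### Finiteness and the trivial dimension bound -/

section Finite

variable [HasPrincipalDivisors K F]

theorem L_finite_bound_aux (hdeg : ∀ P : Place K F, P.deg = 1) [Nonempty (Place K F)] :
    ∀ (n : ℕ) (D : Divisor K F), 0 ≤ D → Divisor.degree D = n →
      Module.Finite K (riemannRochSpace D) ∧
        (Module.finrank K (riemannRochSpace D) : ℤ) ≤ n + 1 := by
  -- the step
  have step : ∀ (D' : Divisor K F) (P : Place K F) (m : ℤ),
      Module.Finite K (riemannRochSpace D') →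
      (Module.finrank K (riemannRochSpace D') : ℤ) ≤ m →
      Module.Finite K (riemannRochSpace (D' + Finsupp.single P 1)) ∧
        (Module.finrank K (riemannRochSpace (D' + Finsupp.single P 1)) : ℤ) ≤ m + 1 := by
    intro D' P m hfin hle
    obtain ⟨g, hg⟩ := L_add_single_le P (hdeg P) D'
    have hfin2 : Module.Finite K (riemannRochSpace D' ⊔ Submodule.span K {g} : Submodule K F) :=
      Submodule.finiteDimensional_sup _ _
    have hfin3 : Module.Finite K (riemannRochSpace (D' + Finsupp.single P 1)) :=
      Submodule.finiteDimensional_of_le hg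
    refine ⟨hfin3, ?_⟩
    have h1 := Submodule.finrank_mono hg
    have h2 := Submodule.finrank_add_le_finrank_add_finrank (riemannRochSpace D')
      (Submodule.span K {g})
    have h3 : Module.finrank K (Submodule.span K ({g} : Set F)) ≤ 1 := by
      have := finrank_span_finset_le_card (R := K) ({g} : Finset F)
      simp only [Finset.coe_singleton, Finset.card_singleton] at this
      exact this
    have : (Module.finrank K (riemannRochSpace (D' + Finsupp.single P 1)) : ℤ) ≤
        (Module.finrank K (riemannRochSpace D') : ℤ) + 1 := by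
      exact_mod_cast (h1.trans h2).trans (Nat.add_le_add_left h3 _)
    linarith
  intro n
  induction n with
  | zero =>
    intro D hD hd
    have hD0 : D = 0 := eq_zero_of_nonneg_of_degree_eq_zero hdeg hD (by simpa using hd)
    subst hD0
    obtain ⟨P⟩ := ‹Nonempty (Place K F)›
    have hbot : riemannRochSpace (-(Finsupp.single P 1) : Divisor K F) = ⊥ := by
      apply L_eq_bot_of_degree_neg
      rw [map_neg, degree_single_one hdeg]
      norm_num
    have hfin : Module.Finite K (riemannRochSpace (-(Finsupp.single P 1) : Divisor K F)) := by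
      rw [hbot]; infer_instance
    have hle : (Module.finrank K (riemannRochSpace (-(Finsupp.single P 1) : Divisor K F)) : ℤ)
        ≤ 0 := by
      rw [hbot]; simp
    have := step _ P 0 hfin hle
    rw [neg_add_cancel] at this
    simpa using this
  | succ n ih =>
    intro D hD hd
    obtain ⟨P, hP⟩ := exists_pos_of_degree_pos (D := D) (by rw [hd]; positivity)
    set D' : Divisor K F := D - Finsupp.single P 1 with hD'
    have hD'0 : 0 ≤ D' := by
      rw [Finsupp.le_def]
      intro v
      rw [hD', Finsupp.sub_apply]
      by_cases hv : v = P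
      · subst hv
        rw [Finsupp.single_eq_same]
        simp only [Finsupp.coe_zero, Pi.zero_apply]
        omega
      · rw [Finsupp.single_eq_of_ne' (Ne.symm hv)]
        have := Finsupp.le_def.mp hD v
        simpa using this
    have hd' : Divisor.degree D' = n := by
      rw [hD', map_sub, hd, degree_single_one hdeg]
      push_cast
      ring
    obtain ⟨hfin, hle⟩ := ih D' hD'0 hd'
    have := step D' P (n + 1) hfin hle
    rw [hD', sub_add_cancel] at this
    push_cast
    exact this

theorem L_finite_of_nonneg (hdeg : ∀ P : Place K F, P.deg = 1) [Nonempty (Place K F)]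
    {D : Divisor K F} (hD : 0 ≤ D) : Module.Finite K (riemannRochSpace D) := by
  have h0 := degree_nonneg hD
  obtain ⟨n, hn⟩ := Int.eq_ofNat_of_zero_le h0
  exact (L_finite_bound_aux hdeg n D hD hn).1

theorem finrank_L_le (hdeg : ∀ P : Place K F, P.deg = 1) [Nonempty (Place K F)]
    {D : Divisor K F} (hD : 0 ≤ D) :
    (Module.finrank K (riemannRochSpace D) : ℤ) ≤ Divisor.degree D + 1 := by
  have h0 := degree_nonneg hD
  obtain ⟨n, hn⟩ := Int.eq_ofNat_of_zero_le h0
  rw [hn]
  exact (L_finite_bound_aux hdeg n D hD hn).2

theorem L_finite (hdeg : ∀ P : Place K F, P.deg = 1) [Nonempty (Place K F)]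
    (D : Divisor K F) : Module.Finite K (riemannRochSpace D) := by
  have := L_finite_of_nonneg hdeg (posPart_nonneg D)
  exact Submodule.finiteDimensional_of_le (L_mono (le_posPart D))

end Finite

/-! ### Induction on effective divisors -/

theorem effective_induction_aux {p : Divisor K F → Prop} (h0 : p 0)
    (hstep : ∀ (D : Divisor K F) (P : Place K F), 0 ≤ D → p D → p (D + Finsupp.single P 1)) :
    ∀ (n : ℕ) (D : Divisor K F), 0 ≤ D → (∑ v ∈ D.support, D v) = n → p D := by
  intro n
  induction n with
  | zero =>
    intro D hD hd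
    have hD0 : D = 0 := by
      have hnn : ∀ v ∈ D.support, 0 ≤ D v := by
        intro v _
        have := Finsupp.le_def.mp hD v
        simpa using this
      have hz := (Finset.sum_eq_zero_iff_of_nonneg hnn).mp (by simpa using hd)
      ext v
      by_cases hv : v ∈ D.support
      · simpa using hz v hv
      · simpa using hv
    rw [hD0]
    exact h0
  | succ n ih =>
    intro D hD hd
    classical
    obtain ⟨P, hP⟩ : ∃ P : Place K F, 0 < D P := by
      by_contra hne
      push Not at hne
      have : ∑ v ∈ D.support, D v ≤ 0 := Finset.sum_nonpos fun v _ => hne v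
      rw [hd] at this
      have h1 : (0 : ℤ) ≤ (n : ℤ) := by positivity
      push_cast at this
      omega
    set D' : Divisor K F := D - Finsupp.single P 1 with hD'
    have hD'0 : 0 ≤ D' := by
      rw [Finsupp.le_def]
      intro v
      rw [hD', Finsupp.sub_apply]
      by_cases hv : v = P
      · subst hv
        rw [Finsupp.single_eq_same]
        simp only [Finsupp.coe_zero, Pi.zero_apply]
        omega
      · rw [Finsupp.single_eq_of_ne' (Ne.symm hv)]
        have := Finsupp.le_def.mp hD v
        simpa using this
    have hsum : ∀ E : Divisor K F, (∑ v ∈ E.support, E v) = E.sum fun _ m => m := fun E => rfl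
    have hd' : (∑ v ∈ D'.support, D' v) = n := by
      rw [hsum] at hd ⊢
      have hadd : D = D' + Finsupp.single P 1 := by rw [hD', sub_add_cancel]
      rw [hadd, Finsupp.sum_add_index' (fun _ => rfl) (fun _ _ _ => rfl),
        Finsupp.sum_single_index rfl] at hd
      push_cast at hd
      linarith
    have := hstep D' P hD'0 (ih D' hD'0 hd')
    rwa [hD', sub_add_cancel] at this

theorem effective_induction {p : Divisor K F → Prop} (h0 : p 0)
    (hstep : ∀ (D : Divisor K F) (P : Place K F), 0 ≤ D → p D → p (D + Finsupp.single P 1))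
    (D : Divisor K F) (hD : 0 ≤ D) : p D := by
  have hnn : 0 ≤ ∑ v ∈ D.support, D v := Finset.sum_nonneg fun v _ => by
    have := Finsupp.le_def.mp hD v
    simpa using this
  obtain ⟨n, hn⟩ := Int.eq_ofNat_of_zero_le hnn
  exact effective_induction_aux h0 hstep n D hD hn

end Fermat.Agent.RIN.H6100
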