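import Fermat.Agent.RIN.H6100.Red

/-!
# RIN (abstract Deuring theorem), part (c): the pole bound

If `x ∈ L(D) ∩ O` with `D ≥ 0`, then the pole divisor of `red x` has degree at most `deg D`.
-/

set_option autoImplicit false

namespace Fermat.Agent.RIN.H6100

open AlgebraicCurve

/-! ### Multiplication by a function on the spaces `L(n E)`, `E` its pole divisor -/

section Mult

variable {k Fb : Type*} [Field k] [Field Fb] [Algebra k Fb] [HasPrincipalDivisors k Fb]

theorem nsmul_poleDiv_apply (fb : Fb) (n : ℕ) (Q : Place k Fb) :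
    (n • poleDiv (K := k) fb) Q = (n : ℤ) * max (-(Q.ord fb)) 0 := by
  rw [Finsupp.smul_apply, poleDiv_apply, nsmul_eq_mul]

theorem nsmul_poleDiv_nonneg (fb : Fb) (n : ℕ) : 0 ≤ n • poleDiv (K := k) fb :=
  nsmul_nonneg (poleDiv_nonneg fb) n

theorem mul_L_le (fb : Fb) (n : ℕ) :
    (riemannRochSpace (n • poleDiv (K := k) fb)).map (LinearMap.mulLeft k fb) ≤
      riemannRochSpace ((n + 1) • poleDiv (K := k) fb) := by
  rintro _ ⟨h, hh, rfl⟩
  rw [LinearMap.mulLeft_apply, succ_nsmul']
  exact mul_mem_L (mem_L_poleDiv (K := k) fb) hh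

theorem L_inf_mul_le (fb : Fb) (n : ℕ) :
    riemannRochSpace ((n + 1) • poleDiv (K := k) fb) ⊓
        (riemannRochSpace ((n + 1) • poleDiv (K := k) fb)).map (LinearMap.mulLeft k fb) ≤
      (riemannRochSpace (n • poleDiv (K := k) fb)).map (LinearMap.mulLeft k fb) := by
  rintro g ⟨hg, ⟨h, hh, rfl⟩⟩
  refine ⟨h, ?_, rfl⟩
  rw [LinearMap.mulLeft_apply] at hg
  simp only [SetLike.mem_coe] at hg hh ⊢
  rcases eq_or_ne h 0 with rfl | hh0
  · exact zero_mem _
  rcases eq_or_ne fb 0 with rfl | hfb
  · -- `poleDiv 0 = 0`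
    rw [mem_L hh0] at hh ⊢
    intro Q
    have := hh Q
    rw [nsmul_poleDiv_apply] at this ⊢
    simp only [Place.ord_zero, neg_zero, max_self, mul_zero] at this ⊢
    exact this
  have hg0 : fb * h ≠ 0 := mul_ne_zero hfb hh0
  rw [mem_L hg0] at hg
  rw [mem_L hh0] at hh
  rw [mem_L hh0]
  intro Q
  have h1 := hg Q
  have h2 := hh Q
  rw [nsmul_poleDiv_apply, Q.ord_mul hfb hh0] at h1
  rw [nsmul_poleDiv_apply] at h2 ⊢
  push_cast at h1 h2
  rcases le_or_gt 0 (Q.ord fb) with ho | ho
  · rw [max_eq_right (by omega)] at h2 ⊢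
    simp only [mul_zero, neg_zero] at h2 ⊢
    exact h2
  · rw [max_eq_left (by omega)] at h1 ⊢
    nlinarith

theorem L_succ_succ_eq_sup (hdeg : ∀ Q : Place k Fb, Q.deg = 1) [Nonempty (Place k Fb)]
    (fb : Fb) (hfb : fb ≠ 0) (γ : ℤ) (n : ℕ)
    (h0 : (Module.finrank k (riemannRochSpace (n • poleDiv (K := k) fb)) : ℤ) =
      n * Divisor.degree (poleDiv (K := k) fb) + 1 - γ)
    (h1 : (Module.finrank k (riemannRochSpace ((n + 1) • poleDiv (K := k) fb)) : ℤ) =
      (n + 1) * Divisor.degree (poleDiv (K := k) fb) + 1 - γ)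
    (h2 : (Module.finrank k (riemannRochSpace ((n + 2) • poleDiv (K := k) fb)) : ℤ) =
      (n + 2) * Divisor.degree (poleDiv (K := k) fb) + 1 - γ) :
    riemannRochSpace ((n + 2) • poleDiv (K := k) fb) =
      riemannRochSpace ((n + 1) • poleDiv (K := k) fb) ⊔
        (riemannRochSpace ((n + 1) • poleDiv (K := k) fb)).map (LinearMap.mulLeft k fb) := by
  have hfin : ∀ m : ℕ, Module.Finite k (riemannRochSpace (m • poleDiv (K := k) fb)) :=
    fun m => L_finite hdeg _
  have := hfin n
  have := hfin (n + 1)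
  have := hfin (n + 2)
  have hinj : Function.Injective (LinearMap.mulLeft k fb) := by
    intro a b hab
    simpa [LinearMap.mulLeft_apply, hfb] using hab
  symm
  apply Submodule.eq_of_le_of_finrank_le
  · refine sup_le (L_mono ?_) (mul_L_le fb (n + 1))
    exact nsmul_le_nsmul_left (poleDiv_nonneg fb) (by omega)
  · have hsum := Submodule.finrank_sup_add_finrank_inf_eq
      (riemannRochSpace ((n + 1) • poleDiv (K := k) fb))
      ((riemannRochSpace ((n + 1) • poleDiv (K := k) fb)).map (LinearMap.mulLeft k fb))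
    have hW : Module.finrank k
        ((riemannRochSpace ((n + 1) • poleDiv (K := k) fb)).map (LinearMap.mulLeft k fb)) =
        Module.finrank k (riemannRochSpace ((n + 1) • poleDiv (K := k) fb)) :=
      (Submodule.equivMapOfInjective _ hinj _).finrank_eq.symm
    have hW0 : Module.finrank k
        ((riemannRochSpace (n • poleDiv (K := k) fb)).map (LinearMap.mulLeft k fb)) =
        Module.finrank k (riemannRochSpace (n • poleDiv (K := k) fb)) :=
      (Submodule.equivMapOfInjective _ hinj _).finrank_eq.symm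
    have hinf := Submodule.finrank_mono (L_inf_mul_le (k := k) fb n)
    rw [hW0] at hinf
    rw [hW] at hsum
    have hsumZ : (Module.finrank k
        (riemannRochSpace ((n + 1) • poleDiv (K := k) fb) ⊔
          (riemannRochSpace ((n + 1) • poleDiv (K := k) fb)).map (LinearMap.mulLeft k fb) :
          Submodule k Fb) : ℤ) +
        (Module.finrank k
        (riemannRochSpace ((n + 1) • poleDiv (K := k) fb) ⊓
          (riemannRochSpace ((n + 1) • poleDiv (K := k) fb)).map (LinearMap.mulLeft k fb) :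
          Submodule k Fb) : ℤ) =
        2 * (Module.finrank k (riemannRochSpace ((n + 1) • poleDiv (K := k) fb)) : ℤ) := by
      exact_mod_cast (by rw [hsum]; ring :
        Module.finrank k
        (riemannRochSpace ((n + 1) • poleDiv (K := k) fb) ⊔
          (riemannRochSpace ((n + 1) • poleDiv (K := k) fb)).map (LinearMap.mulLeft k fb) :
          Submodule k Fb) +
        Module.finrank k
        (riemannRochSpace ((n + 1) • poleDiv (K := k) fb) ⊓
          (riemannRochSpace ((n + 1) • poleDiv (K := k) fb)).map (LinearMap.mulLeft k fb) :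
          Submodule k Fb) =
        2 * Module.finrank k (riemannRochSpace ((n + 1) • poleDiv (K := k) fb)))
    have hinfZ : (Module.finrank k
        (riemannRochSpace ((n + 1) • poleDiv (K := k) fb) ⊓
          (riemannRochSpace ((n + 1) • poleDiv (K := k) fb)).map (LinearMap.mulLeft k fb) :
          Submodule k Fb) : ℤ) ≤
        (Module.finrank k (riemannRochSpace (n • poleDiv (K := k) fb)) : ℤ) := by
      exact_mod_cast hinf
    have : (Module.finrank k (riemannRochSpace ((n + 2) • poleDiv (K := k) fb)) : ℤ) ≤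
        (Module.finrank k
        (riemannRochSpace ((n + 1) • poleDiv (K := k) fb) ⊔
          (riemannRochSpace ((n + 1) • poleDiv (K := k) fb)).map (LinearMap.mulLeft k fb) :
          Submodule k Fb) : ℤ) := by
      rw [h2]
      rw [h0] at hinfZ
      rw [h1] at hsumZ
      linarith
    exact_mod_cast this

end Mult

/-! ### The pole bound -/

section PoleBound

variable {K F k Fb : Type*} [Field K] [Field F] [Algebra K F] [Field k] [Field Fb] [Algebra k Fb]
variable {O : ValuationSubring F} {red : O →+* Fb}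
variable [HasPrincipalDivisors K F] [HasPrincipalDivisors k Fb]
variable [Nonempty (Place K F)] [Nonempty (Place k Fb)]

omit [Nonempty (Place k Fb)] in
theorem poleDiv_zero : poleDiv (K := k) (0 : Fb) = 0 := by
  ext v
  rw [poleDiv_apply]
  simp

/-- **Pole bound.**  If `x ∈ L(D) ∩ O` with `D ≥ 0`, the pole divisor of `red x` has degree at
most `deg D`. -/
theorem pole_bound (hO : IsConstRed K k O red) (hlat : HLat K k O red)
    (hdegF : ∀ P : Place K F, P.deg = 1) (hdegFb : ∀ Q : Place k Fb, Q.deg = 1) (γ : ℤ)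
    (hRFb : ∀ E : Divisor k Fb,
      Divisor.degree E + 1 - γ ≤ (Module.finrank k (riemannRochSpace E) : ℤ))
    (hRFb' : ∃ c : ℤ, ∀ E : Divisor k Fb, c ≤ Divisor.degree E →
      (Module.finrank k (riemannRochSpace E) : ℤ) ≤ Divisor.degree E + 1 - γ)
    {D : Divisor K F} (hD : 0 ≤ D) (x : O) (hx : (x : F) ∈ riemannRochSpace D) :
    Divisor.degree (poleDiv (K := k) (red x)) ≤ Divisor.degree D := by
  classical
  by_contra hlt
  push Not at hlt
  have hD0 : 0 ≤ Divisor.degree D := degree_nonneg hD
  have hfb : red x ≠ 0 := by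
    intro h0
    rw [h0, poleDiv_zero, map_zero] at hlt
    omega
  generalize hfbdef : red x = fb at hfb hlt
  have hfbMb : fb ∈ Mb hO D := hfbdef ▸ red_mem_Mb hO x hx
  set E := poleDiv (K := k) fb with hE
  set e := Divisor.degree E with he
  have he1 : Divisor.degree D + 1 ≤ e := by omega
  obtain ⟨c, hc⟩ := hRFb'
  set m₁ : ℕ := c.toNat with hm₁
  have hℓ : ∀ m : ℕ, m₁ ≤ m →
      (Module.finrank k (riemannRochSpace (m • E)) : ℤ) = m * e + 1 - γ := by
    intro m hm
    have hdeg : Divisor.degree (m • E) = m * e := by rw [map_nsmul, nsmul_eq_mul]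
    have hcm : c ≤ Divisor.degree (m • E) := by
      rw [hdeg]
      have h1 : c ≤ (m₁ : ℤ) := Int.self_le_toNat c
      have h2 : (m₁ : ℤ) ≤ m := by exact_mod_cast hm
      have h3 : (0 : ℤ) ≤ m := by positivity
      nlinarith
    have h1 := hRFb (m • E)
    have h2 := hc (m • E) hcm
    rw [hdeg] at h1 h2
    omega
  -- lift a basis of `L((m₁+1) E)`
  have hfinV : Module.Finite k (riemannRochSpace ((m₁ + 1) • E)) := L_finite hdegFb _
  let b := Module.finBasis k (riemannRochSpace ((m₁ + 1) • E))
  choose g hg using fun j => hO.surj (b j : Fb)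
  set Dg : Divisor K F := ∑ j, poleDiv (K := K) (g j : F) with hDg
  have hDg0 : 0 ≤ Dg := Finset.sum_nonneg fun j _ => poleDiv_nonneg _
  have hgL : ∀ j, (g j : F) ∈ riemannRochSpace Dg := fun j =>
    L_mono (Finset.single_le_sum (f := fun j => poleDiv (K := K) (g j : F))
      (fun i _ => poleDiv_nonneg _) (Finset.mem_univ j)) (mem_L_poleDiv _)
  have hbase : riemannRochSpace ((m₁ + 1) • E) ≤ Mb hO Dg := by
    intro v hv
    have h1 := b.sum_repr ⟨v, hv⟩
    have hv' : v = ∑ j, b.repr ⟨v, hv⟩ j • (b j : Fb) := by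
      have h2 := congrArg Subtype.val h1
      rw [AddSubmonoidClass.coe_finsetSum] at h2
      simpa using h2.symm
    rw [hv']
    refine Submodule.sum_mem _ fun j _ => Submodule.smul_mem _ _ ?_
    rw [← hg j]
    exact red_mem_Mb hO (g j) (hgL j)
  -- induction
  have hind : ∀ n : ℕ, riemannRochSpace ((m₁ + n + 1) • E) ≤ Mb hO ((n + 1) • D + Dg) := by
    intro n
    induction n with
    | zero =>
      refine hbase.trans (Mb_mono hO ?_)
      rw [zero_add, one_smul]
      exact le_add_of_nonneg_left hD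
    | succ n ih =>
      have hsup := L_succ_succ_eq_sup hdegFb fb hfb γ (m₁ + n) (hℓ _ (by omega))
        (by have := hℓ (m₁ + n + 1) (by omega); push_cast at this ⊢; exact this)
        (by have := hℓ (m₁ + n + 2) (by omega); push_cast at this ⊢; exact this)
      rw [show m₁ + (n + 1) + 1 = m₁ + n + 2 by ring, hsup]
      refine sup_le (ih.trans (Mb_mono hO ?_)) ?_
      · exact add_le_add_left (nsmul_le_nsmul_left hD (by omega)) Dg
      · rintro _ ⟨h, hh, rfl⟩
        rw [LinearMap.mulLeft_apply]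
        have h1 := mul_mem_Mb hO hfbMb (ih hh)
        have h2 : D + ((n + 1) • D + Dg) = (n + 1 + 1) • D + Dg := by
          rw [succ_nsmul' (n := n + 1), add_assoc]
        rw [h2] at h1
        exact h1
  -- dimension count
  have hcount : ∀ n : ℕ, ((m₁ : ℤ) + n + 1) * e + 1 - γ ≤
      (n + 1) * Divisor.degree D + Divisor.degree Dg + 1 := by
    intro n
    have hnn : 0 ≤ (n + 1) • D + Dg := add_nonneg (nsmul_nonneg hD _) hDg0
    have hfinL : Module.Finite K (riemannRochSpace ((n + 1) • D + Dg)) := L_finite hdegF _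
    have hfinMb := (finrank_Mb_le hO ((n + 1) • D + Dg)).1
    have h1 := Submodule.finrank_mono (hind n)
    have h2 := finrank_Mb hO hlat ((n + 1) • D + Dg)
    have h3 := finrank_L_le hdegF hnn
    have h4 := hℓ (m₁ + n + 1) (by omega)
    rw [map_add, map_nsmul, nsmul_eq_mul] at h3
    rw [h2] at h1
    have h5 : (Module.finrank k (riemannRochSpace ((m₁ + n + 1) • E)) : ℤ) ≤
        Module.finrank K (riemannRochSpace ((n + 1) • D + Dg)) := by exact_mod_cast h1
    push_cast at h3 h4 h5 ⊢
    linarith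
  -- contradiction
  have hC := hcount (Divisor.degree Dg + γ).toNat
  have h1 : Divisor.degree Dg + γ ≤ ((Divisor.degree Dg + γ).toNat : ℤ) := Int.self_le_toNat _
  have h2 : (0 : ℤ) ≤ (m₁ : ℤ) + ((Divisor.degree Dg + γ).toNat : ℤ) + 1 := by positivity
  have h3 : (0 : ℤ) ≤ (m₁ : ℤ) := by positivity
  have h4 : (0 : ℤ) ≤ ((Divisor.degree Dg + γ).toNat : ℤ) := by positivity
  nlinarith [mul_le_mul_of_nonneg_left he1 h2, mul_nonneg h3 hD0]

end PoleBound

end Fermat.Agent.RIN.H6100
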