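import Fermat.Agent.RIN.H6100.Basic
import Fermat.Agent.RIN.Defs

/-!
# RIN (abstract Deuring theorem), part (b): reduction of Riemann–Roch spaces

`Mb hO D = red (L(D) ∩ O)` is a `k`-subspace of `Fb` of the same dimension as `L(D)`.
-/

set_option autoImplicit false

namespace Fermat.Agent.RIN.H6100

open AlgebraicCurve

variable {K F k Fb : Type*} [Field K] [Field F] [Algebra K F] [Field k] [Field Fb] [Algebra k Fb]
variable {O : ValuationSubring F} {red : O →+* Fb}

/-- The reduction of `L(D) ∩ O`, as a `k`-subspace of `Fb`. -/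
def Mb (hO : IsConstRed K k O red) (D : Divisor K F) : Submodule k Fb where
  carrier := {g | ∃ x : O, (x : F) ∈ riemannRochSpace D ∧ red x = g}
  zero_mem' := ⟨0, by simp, map_zero _⟩
  add_mem' := by
    rintro _ _ ⟨x, hx, rfl⟩ ⟨y, hy, rfl⟩
    exact ⟨x + y, Submodule.add_mem _ hx hy, map_add _ _ _⟩
  smul_mem' := by
    rintro c _ ⟨x, hx, rfl⟩
    obtain ⟨a, ha, hac⟩ := hO.const_surj c
    refine ⟨⟨_, ha⟩ * x, ?_, ?_⟩
    · show algebraMap K F a * (x : F) ∈ riemannRochSpace D
      rw [← Algebra.smul_def]
      exact Submodule.smul_mem _ _ hx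
    · rw [map_mul, hac, Algebra.smul_def]

theorem mem_Mb (hO : IsConstRed K k O red) {D : Divisor K F} {g : Fb} :
    g ∈ Mb hO D ↔ ∃ x : O, (x : F) ∈ riemannRochSpace D ∧ red x = g := Iff.rfl

theorem red_mem_Mb (hO : IsConstRed K k O red) {D : Divisor K F} (x : O)
    (hx : (x : F) ∈ riemannRochSpace D) : red x ∈ Mb hO D := ⟨x, hx, rfl⟩

theorem Mb_mono (hO : IsConstRed K k O red) {D D' : Divisor K F} (h : D ≤ D') :
    Mb hO D ≤ Mb hO D' := by
  rintro _ ⟨x, hx, rfl⟩
  exact ⟨x, L_mono h hx, rfl⟩

theorem one_mem_Mb (hO : IsConstRed K k O red) {D : Divisor K F} (hD : 0 ≤ D) :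
    (1 : Fb) ∈ Mb hO D :=
  ⟨1, by simpa using one_mem_L hD, map_one _⟩

theorem mul_mem_Mb (hO : IsConstRed K k O red) {D D' : Divisor K F} {g g' : Fb}
    (hg : g ∈ Mb hO D) (hg' : g' ∈ Mb hO D') : g * g' ∈ Mb hO (D + D') := by
  obtain ⟨x, hx, rfl⟩ := hg
  obtain ⟨y, hy, rfl⟩ := hg'
  exact ⟨x * y, by simpa using mul_mem_L hx hy, map_mul _ _ _⟩

/-- Lifts of `k`-linearly independent reductions are `K`-linearly independent. -/
theorem linearIndependent_of_red (hO : IsConstRed K k O red) {ι : Type*} [Fintype ι]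
    (x : ι → O) (h : LinearIndependent k (fun i => red (x i))) :
    LinearIndependent K (fun i => (x i : F)) := by
  classical
  rw [Fintype.linearIndependent_iff]
  intro c hc
  by_contra hne
  push Not at hne
  obtain ⟨j, hj⟩ := hne
  -- a coefficient of maximal valuation
  obtain ⟨i₀, -, hi₀⟩ := Finset.exists_max_image Finset.univ
    (fun i => O.valuation (algebraMap K F (c i))) ⟨j, Finset.mem_univ j⟩
  have hci₀ : c i₀ ≠ 0 := by
    intro h0
    have h1 := hi₀ j (Finset.mem_univ j)
    rw [h0, map_zero, map_zero] at h1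
    have : O.valuation (algebraMap K F (c j)) = 0 := le_antisymm h1 zero_le
    rw [Valuation.zero_iff] at this
    exact hj ((map_eq_zero _).mp this)
  have hmem : ∀ i, algebraMap K F (c i / c i₀) ∈ O := by
    intro i
    rw [← ValuationSubring.valuation_le_one_iff, map_div₀, map_div₀]
    exact div_le_one_of_le₀ (hi₀ i (Finset.mem_univ i)) zero_le
  -- the rescaled relation inside `O`
  have hrel : ∑ i, (⟨_, hmem i⟩ : O) * x i = 0 := by
    apply Subtype.ext
    rw [AddSubmonoidClass.coe_finsetSum]
    have : ∀ i, (((⟨_, hmem i⟩ : O) * x i : O) : F) = (c i₀)⁻¹ • (c i • (x i : F)) := by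
      intro i
      show algebraMap K F (c i / c i₀) * (x i : F) = _
      rw [smul_smul, Algebra.smul_def, div_eq_inv_mul]
    rw [Finset.sum_congr rfl fun i _ => this i, ← Finset.smul_sum, hc, smul_zero]
    rfl
  choose e he using fun i => hO.const _ (hmem i)
  have hrel' : ∑ i, e i • red (x i) = 0 := by
    have := congrArg red hrel
    rw [map_sum, map_zero] at this
    rw [← this]
    refine Finset.sum_congr rfl fun i _ => ?_
    rw [map_mul, he i, Algebra.smul_def]
  have hall := (Fintype.linearIndependent_iff.mp h) e hrel'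
  have h1 : algebraMap k Fb (e i₀) = 1 := by
    rw [← he i₀]
    have : (⟨_, hmem i₀⟩ : O) = 1 := by
      apply Subtype.ext
      show algebraMap K F (c i₀ / c i₀) = 1
      rw [div_self hci₀, map_one]
    rw [this, map_one]
  rw [hall i₀, map_zero] at h1
  exact zero_ne_one h1

/-- `Mb D` is finite-dimensional of dimension at most `dim L(D)`. -/
theorem finrank_Mb_le (hO : IsConstRed K k O red) (D : Divisor K F)
    [Module.Finite K (riemannRochSpace D)] :
    Module.Finite k (Mb hO D) ∧
      Module.finrank k (Mb hO D) ≤ Module.finrank K (riemannRochSpace D) := by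
  have hrank : Module.rank k (Mb hO D) ≤ (Module.finrank K (riemannRochSpace D) : ℕ) := by
    apply rank_le
    intro s hs
    have hlift : ∀ m : Mb hO D, ∃ x : O, (x : F) ∈ riemannRochSpace D ∧ red x = (m : Fb) :=
      fun m => m.2
    choose x hxL hxred using hlift
    have h1 : LinearIndependent k (fun i : s => red (x (i : Mb hO D))) := by
      have h2 : LinearIndependent k (fun i : s => (((i : Mb hO D)) : Fb)) :=
        hs.map' (Mb hO D).subtype (Submodule.ker_subtype _)
      convert h2 using 2
      exact hxred _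
    have h3 := linearIndependent_of_red hO (fun i : s => x (i : Mb hO D)) h1
    have h4 : LinearIndependent K
        (fun i : s => (⟨(x (i : Mb hO D) : F), hxL _⟩ : riemannRochSpace D)) :=
      LinearIndependent.of_comp (riemannRochSpace D).subtype h3
    have := h4.fintype_card_le_finrank
    simpa using this
  refine ⟨?_, Module.finrank_le_of_rank_le hrank⟩
  rw [← Module.rank_lt_aleph0_iff]
  exact lt_of_le_of_lt hrank Cardinal.natCast_lt_aleph0

/-- The lattice hypothesis: every finite-dimensional `K`-subspace of `F` has a basis in `O`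
whose reductions are `k`-linearly independent. -/
def HLat (K k : Type*) {F Fb : Type*} [Field K] [Field F] [Algebra K F] [Field k] [Field Fb]
    [Algebra k Fb] (O : ValuationSubring F) (red : O →+* Fb) : Prop :=
  ∀ M : Submodule K F, FiniteDimensional K M →
    ∃ b : Fin (Module.finrank K M) → F, ∃ hb : ∀ i, b i ∈ O, (∀ i, b i ∈ M) ∧
      LinearIndependent k (fun i => red ⟨b i, hb i⟩)

/-- Under the lattice hypothesis, `dim Mb D = dim L(D)`. -/
theorem finrank_Mb (hO : IsConstRed K k O red) (hlat : HLat K k O red) (D : Divisor K F)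
    [hfin : Module.Finite K (riemannRochSpace D)] :
    Module.finrank k (Mb hO D) = Module.finrank K (riemannRochSpace D) := by
  obtain ⟨hfinb, hle⟩ := finrank_Mb_le hO D
  refine le_antisymm hle ?_
  obtain ⟨b, hb, hbM, hind⟩ := hlat (riemannRochSpace D) hfin
  have h1 : LinearIndependent k
      (fun i => (⟨red ⟨b i, hb i⟩, red_mem_Mb hO ⟨b i, hb i⟩ (hbM i)⟩ : Mb hO D)) :=
    LinearIndependent.of_comp (Mb hO D).subtype hind
  have := h1.fintype_card_le_finrank
  simpa using this

end Fermat.Agent.RIN.H6100
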