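import Fermat.Agent.RIN.H6100.Basic

/-!
# RIN (abstract Deuring theorem): the tight pole bound of a finite-dimensional space of functions

For a finite-dimensional `k`-subspace `V ≠ 0` of a function field, `tight V` is the least divisor
`R` with `V ⊆ L(R)`; it is attained at every place, and (for infinite `k`) simultaneously at
finitely many places by one "generic" element.
-/

set_option autoImplicit false
set_option linter.unusedSectionVars false

namespace Fermat.Agent.RIN.H6100

open AlgebraicCurve
open Fermat.Agent.S24.A564.SO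

variable {k Fb : Type*} [Field k] [Field Fb] [Algebra k Fb]

/-- Functions of order at least `m` at `Q` (together with zero). -/
def ordGE (Q : Place k Fb) (m : ℤ) : Submodule k Fb where
  carrier := {f | f = 0 ∨ m ≤ Q.ord f}
  zero_mem' := Or.inl rfl
  add_mem' := by
    rintro f g hf hg
    by_cases hfg : f + g = 0
    · exact Or.inl hfg
    right
    have hmin := Place_ord_add_ge Q hfg
    rcases hf with rfl | hf
    · rcases hg with rfl | hg
      · simp at hfg
      · simpa using hg
    rcases hg with rfl | hg
    · simpa using hf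
    exact (le_min hf hg).trans hmin
  smul_mem' := by
    rintro c f hf
    rcases hf with rfl | hf
    · left; simp
    by_cases hc : c = 0
    · left; simp [hc]
    by_cases hf0 : f = 0
    · left; simp [hf0]
    right
    have hc' : algebraMap k Fb c ≠ 0 := by simpa using hc
    show m ≤ Q.ord (c • f)
    rw [Algebra.smul_def, Q.ord_mul hc' hf0, Place_ord_algebraMap, zero_add]
    exact hf

theorem mem_ordGE {Q : Place k Fb} {m : ℤ} {f : Fb} : f ∈ ordGE Q m ↔ f = 0 ∨ m ≤ Q.ord f :=
  Iff.rfl

section Tight

variable [HasPrincipalDivisors k Fb]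

theorem repr_sum (V : Submodule k Fb) [Module.Finite k V] {g : Fb} (hg : g ∈ V) :
    g = ∑ i, (Module.finBasis k V).repr ⟨g, hg⟩ i • ((Module.finBasis k V i : V) : Fb) := by
  have h1 := (Module.finBasis k V).sum_repr ⟨g, hg⟩
  have h2 := congrArg Subtype.val h1
  rw [AddSubmonoidClass.coe_finsetSum] at h2
  simpa using h2.symm

/-- The pointwise value of the tight bound. -/
noncomputable def tightFun (V : Submodule k Fb) [Module.Finite k V] (Q : Place k Fb) : ℤ :=
  if h : (Finset.univ : Finset (Fin (Module.finrank k V))).Nonempty then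
    Finset.univ.sup' h (fun i => -(Q.ord ((Module.finBasis k V i : V) : Fb)))
  else 0

open Classical in
/-- The tight bound of a finite-dimensional space of functions. -/
noncomputable def tight (V : Submodule k Fb) [Module.Finite k V] : Divisor k Fb :=
  Finsupp.onFinset
    (Finset.univ.biUnion fun i => (dv (K := k) ((Module.finBasis k V i : V) : Fb)).support)
    (tightFun V) (by
      intro Q hQ
      by_contra hmem
      apply hQ
      have hzero : ∀ i, Q.ord ((Module.finBasis k V i : V) : Fb) = 0 := by
        intro i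
        by_contra hne
        apply hmem
        rw [Finset.mem_biUnion]
        refine ⟨i, Finset.mem_univ i, ?_⟩
        rw [Finsupp.mem_support_iff, dv_apply]
        exact hne
      unfold tightFun
      split_ifs with h
      · simp only [hzero, neg_zero]
        exact Finset.sup'_const h 0
      · rfl)

theorem tight_apply (V : Submodule k Fb) [Module.Finite k V] (Q : Place k Fb) :
    tight V Q = tightFun V Q := rfl

theorem univ_nonempty_of_ne_zero (V : Submodule k Fb) [Module.Finite k V] {g : Fb} (hg : g ∈ V)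
    (hg0 : g ≠ 0) : (Finset.univ : Finset (Fin (Module.finrank k V))).Nonempty := by
  have hpos : 0 < Module.finrank k V :=
    Module.finrank_pos_iff_exists_ne_zero.mpr ⟨⟨g, hg⟩, fun h => hg0 (congrArg Subtype.val h)⟩
  exact ⟨⟨0, hpos⟩, Finset.mem_univ _⟩

/-- `V ⊆ L(tight V)`. -/
theorem neg_ord_le_tight (V : Submodule k Fb) [Module.Finite k V] {g : Fb} (hg : g ∈ V)
    (hg0 : g ≠ 0) (Q : Place k Fb) : -(Q.ord g) ≤ tight V Q := by
  have hne := univ_nonempty_of_ne_zero V hg hg0
  have hb : ∀ i, ((Module.finBasis k V i : V) : Fb) ∈ ordGE Q (-(tight V Q)) := by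
    intro i
    right
    rw [tight_apply, tightFun, dif_pos hne]
    have := Finset.le_sup' (fun i => -(Q.ord ((Module.finBasis k V i : V) : Fb)))
      (Finset.mem_univ i)
    omega
  have hmem : g ∈ ordGE Q (-(tight V Q)) := by
    rw [repr_sum V hg]
    exact Submodule.sum_mem _ fun i _ => Submodule.smul_mem _ _ (hb i)
  rcases hmem with h | h
  · exact absurd h hg0
  · omega

/-- The tight bound is attained at every place. -/
theorem exists_neg_ord_eq_tight (V : Submodule k Fb) [Module.Finite k V] (hV : V ≠ ⊥)
    (Q : Place k Fb) : ∃ g ∈ V, g ≠ 0 ∧ -(Q.ord g) = tight V Q := by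
  obtain ⟨g₀, hg₀, hg₀0⟩ := (Submodule.ne_bot_iff V).mp hV
  have hne := univ_nonempty_of_ne_zero V hg₀ hg₀0
  obtain ⟨i, -, hi⟩ := Finset.exists_mem_eq_sup' hne
    (fun i => -(Q.ord ((Module.finBasis k V i : V) : Fb)))
  refine ⟨((Module.finBasis k V i : V) : Fb), (Module.finBasis k V i).2, ?_, ?_⟩
  · intro h0
    exact (Module.finBasis k V).ne_zero i (Subtype.ext h0)
  · rw [tight_apply, tightFun, dif_pos hne, hi]

theorem mem_L_tight (V : Submodule k Fb) [Module.Finite k V] : V ≤ riemannRochSpace (tight V) := by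
  intro g hg
  rcases eq_or_ne g 0 with rfl | hg0
  · exact zero_mem _
  rw [mem_L hg0]
  intro Q
  have := neg_ord_le_tight V hg hg0 Q
  omega

/-- If `V ⊆ L(R)` then `tight V ≤ R`. -/
theorem tight_le_of_le_L (V : Submodule k Fb) [Module.Finite k V] (hV : V ≠ ⊥)
    {R : Divisor k Fb} (h : V ≤ riemannRochSpace R) : tight V ≤ R := by
  rw [Finsupp.le_def]
  intro Q
  obtain ⟨g, hg, hg0, hgQ⟩ := exists_neg_ord_eq_tight V hV Q
  have := (mem_L hg0).mp (h hg) Q
  omega

theorem tight_nonneg (V : Submodule k Fb) [Module.Finite k V] (h1 : (1 : Fb) ∈ V) :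
    0 ≤ tight V := by
  rw [Finsupp.le_def]
  intro Q
  have := neg_ord_le_tight V h1 one_ne_zero Q
  simpa using this

/-- **Generic element**: over an infinite field, one element attains the tight bound at finitely
many prescribed places simultaneously. -/
theorem exists_generic [Infinite k] (V : Submodule k Fb) [Module.Finite k V] (hV : V ≠ ⊥)
    (S : Finset (Place k Fb)) :
    ∃ g ∈ V, g ≠ 0 ∧ ∀ Q ∈ S, -(Q.ord g) = tight V Q := by
  classical
  let W : Place k Fb → Submodule k V := fun Q => (ordGE Q (-(tight V Q) + 1)).comap V.subtype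
  let s : Finset (Submodule k V) := insert ⊥ (S.image W)
  have hs : (⊤ : Submodule k V) ∉ s := by
    intro hmem
    rw [Finset.mem_insert, Finset.mem_image] at hmem
    rcases hmem with h | ⟨Q, -, hQ⟩
    · obtain ⟨g₀, hg₀, hg₀0⟩ := (Submodule.ne_bot_iff V).mp hV
      have : (⟨g₀, hg₀⟩ : V) ∈ (⊤ : Submodule k V) := Submodule.mem_top
      rw [h, Submodule.mem_bot] at this
      exact hg₀0 (congrArg Subtype.val this)
    · obtain ⟨g, hg, hg0, hgQ⟩ := exists_neg_ord_eq_tight V hV Q
      have : (⟨g, hg⟩ : V) ∈ W Q := by rw [hQ]; exact Submodule.mem_top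
      rcases this with h | h
      · exact hg0 h
      · have h' : -(tight V Q) + 1 ≤ Q.ord g := h
        omega
  have hcov := Subspace.biUnion_ne_univ_of_top_notMem hs
  obtain ⟨g, hg⟩ := (Set.ne_univ_iff_exists_notMem _).mp hcov
  simp only [Set.mem_iUnion, not_exists] at hg
  have hg0 : (g : Fb) ≠ 0 := by
    intro h0
    apply hg ⊥ (Finset.mem_insert_self _ _)
    show g ∈ (⊥ : Submodule k V)
    rw [Submodule.mem_bot]
    exact Subtype.ext h0
  refine ⟨g, g.2, hg0, fun Q hQ => ?_⟩
  have h1 := neg_ord_le_tight V g.2 hg0 Q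
  have h2 : g ∉ W Q := hg (W Q) (Finset.mem_insert_of_mem (Finset.mem_image_of_mem W hQ))
  have h3 : ¬ ((g : Fb) = 0 ∨ -(tight V Q) + 1 ≤ Q.ord (g : Fb)) := h2
  push Not at h3
  omega

end Tight

end Fermat.Agent.RIN.H6100
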