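import Fermat.Agent.RIN.H6100.PoleBound
import Fermat.Agent.RIN.H6100.Tight

/-!
# RIN (abstract Deuring theorem), parts (d), (e): the reduction of effective divisors

`rho D` is the tight bound of `Mb D = red (L(D) ∩ O)`.  It is superadditive, preserves the degree
of effective divisors of large degree, hence is additive on them, and equals `r_* D` for a map
`r` on places.
-/

set_option autoImplicit false
set_option linter.unusedSectionVars false

namespace Fermat.Agent.RIN.H6100

open AlgebraicCurve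

variable {K F k Fb : Type*} [Field K] [Field F] [Algebra K F] [Field k] [Field Fb] [Algebra k Fb]

/-- The hypotheses of the abstract Deuring theorem. -/
structure Setup (K k : Type*) {F Fb : Type*} [Field K] [Field F] [Algebra K F] [Field k]
    [Field Fb] [Algebra k Fb] (O : ValuationSubring F) (red : O →+* Fb) (γ : ℤ) : Prop where
  hO : IsConstRed K k O red
  hlat : HLat K k O red
  hdegF : ∀ P : Place K F, P.deg = 1
  hdegFb : ∀ Q : Place k Fb, Q.deg = 1
  hRF : ∀ D : Divisor K F,
    Divisor.degree D + 1 - γ ≤ (Module.finrank K (riemannRochSpace D) : ℤ)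
  hRFb : ∀ E : Divisor k Fb,
    Divisor.degree E + 1 - γ ≤ (Module.finrank k (riemannRochSpace E) : ℤ)
  hRFb' : ∃ c : ℤ, ∀ E : Divisor k Fb, c ≤ Divisor.degree E →
    (Module.finrank k (riemannRochSpace E) : ℤ) ≤ Divisor.degree E + 1 - γ

variable {O : ValuationSubring F} {red : O →+* Fb} {γ : ℤ}
variable [HasPrincipalDivisors K F] [HasPrincipalDivisors k Fb]
variable [Nonempty (Place K F)] [Nonempty (Place k Fb)]

theorem single_one_nonneg {K F : Type*} [Field K] [Field F] [Algebra K F] (P : Place K F) :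
    (0 : Divisor K F) ≤ Finsupp.single P 1 := by
  rw [Finsupp.le_def]
  intro v
  by_cases hv : v = P
  · subst hv; simp
  · rw [Finsupp.single_eq_of_ne' (Ne.symm hv)]; simp

theorem degree_mapDomain (hdegF : ∀ P : Place K F, P.deg = 1)
    (hdegFb : ∀ Q : Place k Fb, Q.deg = 1) (r : Place K F → Place k Fb) (D : Divisor K F) :
    Divisor.degree (Finsupp.mapDomain r D) = Divisor.degree D := by
  induction D using Finsupp.induction with
  | zero => simp
  | single_add P n D _ _ ih =>
    rw [Finsupp.mapDomain_add, map_add, map_add, ih, Finsupp.mapDomain_single,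
      Divisor.degree_single, Divisor.degree_single, hdegF, hdegFb]

namespace Setup

variable (h : Setup K k O red γ)

theorem Mb_finite (D : Divisor K F) : Module.Finite k (Mb h.hO D) :=
  haveI := L_finite h.hdegF D
  (finrank_Mb_le h.hO D).1

/-- The degree threshold from Riemann's theorem on `Fb`. -/
noncomputable def c : ℤ := h.hRFb'.choose

theorem c_spec (E : Divisor k Fb) (hE : h.c ≤ Divisor.degree E) :
    (Module.finrank k (riemannRochSpace E) : ℤ) ≤ Divisor.degree E + 1 - γ :=
  h.hRFb'.choose_spec E hE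

/-- The reduction of a divisor: the tight bound of `Mb D`. -/
noncomputable def rho (D : Divisor K F) : Divisor k Fb :=
  haveI := h.Mb_finite D
  tight (Mb h.hO D)

theorem Mb_ne_bot {D : Divisor K F} (hD : 0 ≤ D) : Mb h.hO D ≠ ⊥ := by
  intro hbot
  have h1 := one_mem_Mb h.hO hD
  rw [hbot, Submodule.mem_bot] at h1
  exact one_ne_zero h1

theorem neg_ord_le_rho {D : Divisor K F} {g : Fb} (hg : g ∈ Mb h.hO D) (hg0 : g ≠ 0)
    (Q : Place k Fb) : -(Q.ord g) ≤ h.rho D Q :=
  haveI := h.Mb_finite D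
  neg_ord_le_tight (Mb h.hO D) hg hg0 Q

theorem exists_neg_ord_eq_rho {D : Divisor K F} (hD : 0 ≤ D) (Q : Place k Fb) :
    ∃ g ∈ Mb h.hO D, g ≠ 0 ∧ -(Q.ord g) = h.rho D Q :=
  haveI := h.Mb_finite D
  exists_neg_ord_eq_tight (Mb h.hO D) (h.Mb_ne_bot hD) Q

theorem rho_nonneg {D : Divisor K F} (hD : 0 ≤ D) : 0 ≤ h.rho D :=
  haveI := h.Mb_finite D
  tight_nonneg (Mb h.hO D) (one_mem_Mb h.hO hD)

theorem Mb_le_L_rho (D : Divisor K F) : Mb h.hO D ≤ riemannRochSpace (h.rho D) :=
  haveI := h.Mb_finite D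
  mem_L_tight (Mb h.hO D)

theorem degree_rho_le [Infinite k] {D : Divisor K F} (hD : 0 ≤ D) :
    Divisor.degree (h.rho D) ≤ Divisor.degree D := by
  have := h.Mb_finite D
  obtain ⟨g, hg, hg0, hgS⟩ :=
    exists_generic (Mb h.hO D) (h.Mb_ne_bot hD) (h.rho D).support
  obtain ⟨x, hx, rfl⟩ := hg
  have hpole : poleDiv (K := k) (red x) = h.rho D := by
    ext Q
    rw [poleDiv_apply]
    by_cases hQ : Q ∈ (h.rho D).support
    · have h1 : -(Q.ord (red x)) = h.rho D Q := hgS Q hQ
      have h2 := Finsupp.le_def.mp (h.rho_nonneg hD) Q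
      simp only [Finsupp.coe_zero, Pi.zero_apply] at h2
      rw [h1]
      exact max_eq_left h2
    · have h0 : h.rho D Q = 0 := by simpa using hQ
      have h1 := h.neg_ord_le_rho ⟨x, hx, rfl⟩ hg0 Q
      rw [h0] at h1 ⊢
      exact max_eq_right h1
  rw [← hpole]
  exact pole_bound h.hO h.hlat h.hdegF h.hdegFb γ h.hRFb h.hRFb' hD x hx

theorem degree_rho_eq [Infinite k] {D : Divisor K F} (hD : 0 ≤ D)
    (hc : h.c < Divisor.degree D) : Divisor.degree (h.rho D) = Divisor.degree D := by
  refine le_antisymm (h.degree_rho_le hD) ?_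
  obtain ⟨Q₀⟩ := ‹Nonempty (Place k Fb)›
  set n : ℕ := (h.c - Divisor.degree (h.rho D)).toNat with hn
  set R' : Divisor k Fb := h.rho D + n • Finsupp.single Q₀ 1 with hR'
  have hdegR' : Divisor.degree R' = Divisor.degree (h.rho D) + n := by
    rw [hR', map_add, map_nsmul, degree_single_one h.hdegFb, nsmul_eq_mul, mul_one]
  have hle : h.rho D ≤ R' := le_add_of_nonneg_right (nsmul_nonneg (single_one_nonneg Q₀) n)
  have hnmax : (n : ℤ) = max (h.c - Divisor.degree (h.rho D)) 0 := Int.toNat_eq_max _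
  have hcR' : h.c ≤ Divisor.degree R' := by
    rw [hdegR', hnmax]
    have := le_max_left (h.c - Divisor.degree (h.rho D)) 0
    omega
  have := L_finite h.hdegF D
  have := h.Mb_finite D
  have : Module.Finite k (riemannRochSpace (h.rho D)) := L_finite h.hdegFb _
  have : Module.Finite k (riemannRochSpace R') := L_finite h.hdegFb _
  have h1 := h.hRF D
  have h2 := finrank_Mb h.hO h.hlat D
  have h3 := Submodule.finrank_mono (h.Mb_le_L_rho D)
  have h4 := Submodule.finrank_mono (L_mono hle)
  have h5 := h.c_spec R' hcR'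
  have h6 : (Module.finrank K (riemannRochSpace D) : ℤ) ≤
      Module.finrank k (riemannRochSpace R') := by
    rw [h2] at h3
    exact_mod_cast h3.trans h4
  rw [hdegR', hnmax] at h5
  rcases max_cases (h.c - Divisor.degree (h.rho D)) 0 with ⟨hm, -⟩ | ⟨hm, -⟩ <;>
    rw [hm] at h5 <;> omega

theorem rho_add_le {D₁ D₂ : Divisor K F} (hD₁ : 0 ≤ D₁) (hD₂ : 0 ≤ D₂) :
    h.rho D₁ + h.rho D₂ ≤ h.rho (D₁ + D₂) := by
  rw [Finsupp.le_def]
  intro Q
  obtain ⟨g₁, hg₁, hg₁0, h1⟩ := h.exists_neg_ord_eq_rho hD₁ Q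
  obtain ⟨g₂, hg₂, hg₂0, h2⟩ := h.exists_neg_ord_eq_rho hD₂ Q
  have h3 := h.neg_ord_le_rho (mul_mem_Mb h.hO hg₁ hg₂) (mul_ne_zero hg₁0 hg₂0) Q
  rw [Q.ord_mul hg₁0 hg₂0] at h3
  rw [Finsupp.add_apply]
  omega

/-- Effective divisors of large degree. -/
def Large (D : Divisor K F) : Prop := 0 ≤ D ∧ h.c < Divisor.degree D

theorem large_add {D D' : Divisor K F} (hD : h.Large D) (hD' : 0 ≤ D') : h.Large (D + D') := by
  refine ⟨add_nonneg hD.1 hD', ?_⟩
  rw [map_add]
  have := degree_nonneg hD'
  have := hD.2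
  omega

theorem rho_add [Infinite k] {D₁ D₂ : Divisor K F} (h₁ : h.Large D₁) (h₂ : h.Large D₂) :
    h.rho (D₁ + D₂) = h.rho D₁ + h.rho D₂ := by
  symm
  apply eq_of_le_of_degree_eq h.hdegFb (h.rho_add_le h₁.1 h₂.1)
  have h₃ := h.large_add h₁ h₂.1
  rw [map_add, h.degree_rho_eq h₁.1 h₁.2, h.degree_rho_eq h₂.1 h₂.2,
    h.degree_rho_eq h₃.1 h₃.2, map_add]

/-- A fixed effective divisor of large degree. -/
noncomputable def E0 : Divisor K F :=
  (h.c.toNat + 1) • Finsupp.single (Classical.arbitrary (Place K F)) 1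

theorem large_E0 : h.Large h.E0 := by
  refine ⟨nsmul_nonneg (single_one_nonneg _) _, ?_⟩
  unfold E0
  rw [map_nsmul, degree_single_one h.hdegF, nsmul_eq_mul, mul_one]
  have := Int.self_le_toNat h.c
  push_cast
  omega

theorem exists_r [Infinite k] (P : Place K F) :
    ∃ Q : Place k Fb, h.rho (h.E0 + Finsupp.single P 1) = h.rho h.E0 + Finsupp.single Q 1 := by
  have hL := h.large_E0
  have hL' := h.large_add hL (single_one_nonneg P)
  have hle : h.rho h.E0 ≤ h.rho (h.E0 + Finsupp.single P 1) :=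
    (le_add_of_nonneg_right (h.rho_nonneg (single_one_nonneg P))).trans
      (h.rho_add_le hL.1 (single_one_nonneg P))
  have hd : Divisor.degree (h.rho (h.E0 + Finsupp.single P 1) - h.rho h.E0) = 1 := by
    rw [map_sub, h.degree_rho_eq hL'.1 hL'.2, h.degree_rho_eq hL.1 hL.2, map_add,
      degree_single_one h.hdegF]
    ring
  obtain ⟨Q, hQ⟩ := exists_eq_single_of_degree_eq_one h.hdegFb (sub_nonneg.mpr hle) hd
  exact ⟨Q, by rw [← hQ]; abel⟩

/-- The reduction map on places. -/
noncomputable def rmap [Infinite k] (P : Place K F) : Place k Fb := (h.exists_r P).choose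

theorem rho_E0_add_single [Infinite k] (P : Place K F) :
    h.rho (h.E0 + Finsupp.single P 1) = h.rho h.E0 + Finsupp.single (h.rmap P) 1 :=
  (h.exists_r P).choose_spec

theorem rho_add_single [Infinite k] {D : Divisor K F} (hD : h.Large D) (P : Place K F) :
    h.rho (D + Finsupp.single P 1) = h.rho D + Finsupp.single (h.rmap P) 1 := by
  have hL := h.large_E0
  have h1 : h.rho (D + Finsupp.single P 1) + h.rho h.E0 =
      (h.rho D + Finsupp.single (h.rmap P) 1) + h.rho h.E0 := by
    rw [← h.rho_add (h.large_add hD (single_one_nonneg P)) hL,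
      show D + Finsupp.single P 1 + h.E0 = D + (h.E0 + Finsupp.single P 1) by abel,
      h.rho_add hD (h.large_add hL (single_one_nonneg P)), h.rho_E0_add_single]
    abel
  exact add_right_cancel h1

theorem rho_add_effective [Infinite k] {D : Divisor K F} (hD : h.Large D) (D' : Divisor K F)
    (hD' : 0 ≤ D') : h.rho (D + D') = h.rho D + Finsupp.mapDomain h.rmap D' := by
  refine effective_induction
    (p := fun D' => h.rho (D + D') = h.rho D + Finsupp.mapDomain h.rmap D') ?_ ?_ D' hD'
  · simp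
  · intro D'' P hD'' ih
    rw [← add_assoc, h.rho_add_single (h.large_add hD hD'') P, ih, Finsupp.mapDomain_add,
      Finsupp.mapDomain_single, add_assoc]

/-- On effective divisors of large degree, `rho` is the push-forward along `rmap`. -/
theorem rho_eq_mapDomain [Infinite k] {D : Divisor K F} (hD : h.Large D) :
    h.rho D = Finsupp.mapDomain h.rmap D := by
  have h1 := h.rho_add hD hD
  have h2 := h.rho_add_effective hD D hD.1
  rw [h1] at h2
  exact add_left_cancel h2

end Setup

end Fermat.Agent.RIN.H6100
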